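/-
PROJECT N (S33), shared leaf (helper6): THE NODAL CHART FRAME OF `E = ℚ̄(X₀(M q))` AT `A ∣ q`,
`q ∤ M`.

Everything the nodal origin chart (`S33/Nodal/*`) consumes from the `X₀(M q)` instance, bundled and
proved once:

* `ChartFrame hA hqM` : main's nodal datum `S34.CoreZX0Datum.X0Datum hA hqM` TOGETHER WITH the
  EXACT Euler identity `g(M q) + 1 = 2 g(M) + #S` and the fact that the two functions
  `x₁ = α(j)`, `x₂ = β(j)` (reducing to `j̄` on the two components) are fixed by the whole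
  coefficientwise action of `Gal(ℚ̄/ℚ)`;
* `nonempty_chartFrame hA hqM : Nonempty (ChartFrame hA hqM)` (no hypothesis);
* `ChartFrame.rigid`, `genus_sum`, `riemannGe` : the numerical inputs of the chart
  (`NodalRigid` for `g₁ = g(M)`, `m₂ = g(M) + #S - 1`, `g₁ + m₂ = g(M q)`);
* `ChartFrame.smul_param_1/2` : `x_i - c` is fixed by `σ` when `c` is;
* `ChartFrame.exists_fixed_param_1/2` : off a finite set of places of the component, an
  inertia-fixed constant `c` such that `x_i - c` is a good parameter on the disc, with its zero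
  `P0` fixed by the inertia group.
-/
import Fermat.Agent.S34.CoreZX0
import Fermat.Agent.S36.EulerExact.X0
import Fermat.Agent.S30.Arith.HeckeGalois
import Fermat.Agent.S19.ChartX0

set_option autoImplicit false
set_option linter.unusedSectionVars false
set_option linter.style.haveILetI false
set_option synthInstance.maxHeartbeats 400000

noncomputable section

namespace Fermat.Agent.S33.X0.Frame

open ModularCurve AlgebraicCurve IsLocalRing
open Fermat.Agent.S18.NonSpecial Fermat.Agent.S34.NodalDefs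
open Fermat.Agent.S34.Z1X0 Fermat.Agent.S34.CoreZX0Datum Fermat.Agent.S34.CoreZX0Assembly
open Fermat.Agent.S34.CoreZX0Build Fermat.Agent.S34.CoreZX0OfGeneric
open Fermat.Agent.S37.Deuring.Core Fermat.Agent.S37.Gauss.Datum
open Fermat.Agent.S34.Generic.FibAlphaX0 Fermat.Agent.S34.Generic.FibBetaX0
open Fermat.Agent.S34.Generic.BranchX0 Fermat.Agent.S34.WqGalois

local notation "Kb" => AlgebraicClosure ℚ

attribute [local instance 2000] Fermat.Agent.S34.EulerX0.algResFk

/-- shortcut instances (all propositions) -/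
local instance instPDBar (N : ℕ) [NeZero N] :
    HasPrincipalDivisors Kb ↥(modularFunctionFieldBar N) :=
  Fermat.Agent.S18.A.Instances.hasPrincipalDivisors_bar N

local instance instPDFk (A : ValuationSubring Kb) (N : ℕ) [NeZero N] :
    HasPrincipalDivisors (ResidueField ↥A) ↥(modularFunctionFieldFullC (ResidueField ↥A) N) :=
  Fermat.Agent.S37.ReductionInputs.hasPrincipalDivisors_Fk A N

local instance instACk (A : ValuationSubring Kb) : IsAlgClosed (ResidueField ↥A) :=
  Fermat.Agent.S18.ResidueBasics.isAlgClosed_residueField A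

local instance instInfk (A : ValuationSubring Kb) : Infinite (ResidueField ↥A) :=
  Fermat.Agent.S37.ReductionInputs.infinite_residueField A

local instance instNeZeroMul (M q : ℕ) [NeZero M] [NeZero q] : NeZero (M * q) :=
  ⟨Nat.mul_ne_zero (NeZero.ne M) (NeZero.ne q)⟩

variable {q : ℕ} [hq : Fact q.Prime] {M : ℕ} [NeZero M] {A : ValuationSubring Kb} [NeZero q]

set_option maxHeartbeats 1600000 in
/-- **The nodal chart frame of `X₀(M q)` at `A ∣ q`**: main's nodal datum with the exact Euler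
identity and the Galois-fixedness of the two coordinate functions. -/
structure ChartFrame (hA : A.LiesOverPrime q) (hqM : ¬ q ∣ M) where
  /-- the nodal datum of `S34/CoreZX0Datum` -/
  X : X0Datum hA hqM
  /-- the exact Euler identity -/
  genus_eq : (X.g : ℤ) + 1 = X.gk + X.gk + X.S.card
  /-- `x₁` is fixed by the coefficientwise Galois action -/
  x1_fixed : ∀ σ : Kb ≃ₐ[ℚ] Kb, arithmeticGalois (modularFunctionFieldFull (M * q)) σ •
    ((X.x1 : X.N.R1.O) : ↥(modularFunctionFieldBar (M * q))) =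
      ((X.x1 : X.N.R1.O) : ↥(modularFunctionFieldBar (M * q)))
  /-- `x₂` is fixed by the coefficientwise Galois action -/
  x2_fixed : ∀ σ : Kb ≃ₐ[ℚ] Kb, arithmeticGalois (modularFunctionFieldFull (M * q)) σ •
    ((X.x2 : X.N.R2.O) : ↥(modularFunctionFieldBar (M * q))) =
      ((X.x2 : X.N.R2.O) : ↥(modularFunctionFieldBar (M * q)))

variable {hA : A.LiesOverPrime q} {hqM : ¬ q ∣ M}

/-! ### existence -/

section Existence

variable [CharP (ResidueField ↥A) q]

/-- `α(j)` is fixed by the coefficientwise Galois action -/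
theorem smul_alpha_jgen (σ : Kb ≃ₐ[ℚ] Kb) :
    arithmeticGalois (modularFunctionFieldFull (M * q)) σ •
      (heckeAlphaBar Kb M q (Fermat.Agent.S24.DegreeAlg.jgen M)) =
      heckeAlphaBar Kb M q (Fermat.Agent.S24.DegreeAlg.jgen M) := by
  have h := Fermat.Agent.S30.Arith.HeckeGalois.intertwines_alpha (L := Kb) M q σ
    (Fermat.Agent.S24.DegreeAlg.jgen M)
  rw [Fermat.Agent.S37.Equivariance.PlaceEquiv.smul_jgen] at h
  exact h

/-- `β(j)` is fixed by the coefficientwise Galois action -/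
theorem smul_beta_jgen (σ : Kb ≃ₐ[ℚ] Kb) :
    arithmeticGalois (modularFunctionFieldFull (M * q)) σ •
      (heckeBetaBar Kb M q (Fermat.Agent.S24.DegreeAlg.jgen M)) =
      heckeBetaBar Kb M q (Fermat.Agent.S24.DegreeAlg.jgen M) := by
  have h := Fermat.Agent.S30.Arith.HeckeGalois.intertwines_beta (L := Kb) M q σ
    (Fermat.Agent.S24.DegreeAlg.jgen M)
  rw [Fermat.Agent.S37.Equivariance.PlaceEquiv.smul_jgen] at h
  exact h

set_option maxHeartbeats 1600000 in
/-- the node record with the EXACT Euler identity -/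
theorem exists_nodesX0_eq {gM : ℕ}
    (HM : RiemannHyp (ResidueField ↥A) ↥(modularFunctionFieldFullC (ResidueField ↥A) M) gM)
    (hgen : GenericX0 hA hqM (HX0 hA hqM HM)) :
    ∃ Y : NodesC (inputsX0 hgen), (Y.gE : ℤ) + 1 = gM + gM + Y.S.card := by
  haveI : PerfectField (ResidueField ↥A) := inferInstance
  obtain ⟨g, HL⟩ := Fermat.Agent.S18.A.RiemannFk.exists_riemannHyp_FL (M * q)
  obtain ⟨S, hS, hNC, hbS⟩ :=
    Fermat.Agent.S36.EulerExact.X0.exists_nodes_closed_eq hA hqM HM HL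
  set H := HX0 hA hqM HM with hH
  set X := inputsX0 hgen with hX
  have hyp := Fermat.Agent.S34.PcgX0.hyp_X0 hqM hA H (isIntegral_alpha hqM) (isIntegral_beta M q)
    (wq M q hq.out hqM) (fun g => wq_alpha hq.out hqM g) (fun g => wq_beta hq.out hqM g)
    (fun x => wq_wq hq.out hqM x) (goodX0 A M q) (R1 X) (R1_r X) X.Fr_Fr_ne
    (isExt₁ hA hqM) (isExt_comap hA hqM) X.α_mem X.red_α X.β_mem H.riemannL H.riemannK
    (Fermat.Agent.S34.EulerClosedX0.G1X0 hA hqM) (Fermat.Agent.S34.EulerClosedX0.G2X0 hA hqM)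
    (fun f h => h) (fun f h => h) (fun f h h' => rfl) (fun f h h' => rfl) S hS hbS
  exact ⟨{ S := S, cuspL := _, hyp := hyp, gE := g, HL := HL, hNC := hNC.le }, hNC⟩

set_option maxHeartbeats 1600000 in
/-- **The nodal chart frame of `X₀(M q)` exists.** -/
theorem nonempty_chartFrame (hA : A.LiesOverPrime q) (hqM : ¬ q ∣ M) :
    Nonempty (ChartFrame hA hqM) := by
  obtain ⟨gM, HM⟩ := Fermat.Agent.S18.A.RiemannFk.exists_riemannHyp_Fk' (ResidueField ↥A) M
    (Fermat.Agent.S18.B.SeparableFk.isSeparable_jk (ResidueField ↥A) M)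
  have hgen : GenericX0 hA hqM (HX0 hA hqM HM) :=
    Fermat.Agent.S34.CoreZX0.genericX0 hA hqM (HX0 hA hqM HM)
  obtain ⟨Y, hY⟩ := exists_nodesX0_eq HM hgen
  exact ⟨{ X := x0DatumOf (inputsX0 hgen) Y
           genus_eq := hY
           x1_fixed := fun σ => smul_alpha_jgen σ
           x2_fixed := fun σ => smul_beta_jgen σ }⟩

end Existence

/-! ### an abstract lemma: the zero of a fixed good parameter is fixed -/

section Abstract

open Fermat.Agent.S34.NodalDisc

variable {L : Type*} [Field L] {FL : Type*} [Field FL] [Algebra L FL]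
variable {k : Type*} [Field k] {Fk : Type*} [Field Fk] [Algebra k Fk]
variable {A' : ValuationSubring L} {π : A' →+* k}

/-- an automorphism which preserves the partial specialisation map and fixes a good parameter
fixes the zero of that parameter on its disc -/
theorem smul_zero_eq_of_fixed [HasPrincipalDivisors L FL] (R : SmoothRed A' π FL Fk)
    (g : SemilinearAut L FL) (hr : ∀ P : Place L FL, R.r (g • P) = R.r P) {T : R.O}
    {Q : Place k Fk} (hT : IsGoodParam R T Q) (hg : g • ((T : R.O) : FL) = ((T : R.O) : FL))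
    {P0 : Place L FL} (hP0 : R.r P0 = some Q) (hz : 0 < P0.ord ((T : R.O) : FL)) :
    g • P0 = P0 := by
  obtain ⟨P₁, -, -, hother⟩ := hT.exists_unique_zero
  have h0 : P0 = P₁ := by
    by_contra hne
    have := hother P0 hP0 hne
    omega
  have h1 : g • P0 = P₁ := by
    by_contra hne
    have h2 := hother (g • P0) ((hr P0).trans hP0) hne
    have h3 : (g • P0).ord (g • ((T : R.O) : FL)) = P0.ord ((T : R.O) : FL) :=
      SemilinearAut.ord_smul g P0 _
    rw [hg] at h3
    omega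
  rw [h1, ← h0]

/-- the places of `Fk` over which a function has a pole, for a partial specialisation map -/
theorem finite_image_poles [HasPrincipalDivisors L FL] (r : Place L FL → Option (Place k Fk))
    (x : FL) : {Q : Place k Fk | ∃ P : Place L FL, P.ord x < 0 ∧ r P = some Q}.Finite := by
  have hfin : (r '' {P : Place L FL | P.ord x < 0}).Finite :=
    (Fermat.Agent.S18.Core.finite_poles x).image r
  refine (hfin.preimage (Option.some_injective _).injOn).subset ?_
  rintro Q ⟨P, hP, hPQ⟩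
  exact ⟨P, hP, hPQ⟩

end Abstract

/-! ### the numerical inputs of the chart -/

namespace ChartFrame

open Fermat.Agent.S34.NodalDisc Fermat.Agent.S19.ArithX0

variable (F : ChartFrame hA hqM)

/-- the nodes exist -/
theorem one_le_card : 1 ≤ F.X.S.card := by
  have hNC' : (F.X.g : ℤ) + 1 ≤ F.X.gk + F.X.gk + Fintype.card {b // b ∈ F.X.S} := by
    rw [Fintype.card_coe]
    exact F.genus_eq.le
  have h := Fermat.Agent.S34.NodalCoreX0.one_le_card_of_nc hA hqM F.X.HL F.X.Hk hNC'
  rwa [Fintype.card_coe] at h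

theorem nonempty_nodes : Nonempty {b // b ∈ F.X.S} := by
  have h := F.one_le_card
  obtain ⟨b, hb⟩ := Finset.card_pos.mp (by omega : 0 < F.X.S.card)
  exact ⟨⟨b, hb⟩⟩

/-- `g(M q) = g₁ + m₂` with `g₁ = g(M)`, `m₂ = g(M) + #S - 1` -/
theorem genus_sum : F.X.g = F.X.gk + (F.X.gk + F.X.S.card - 1) := by
  have h1 := F.genus_eq
  have h2 := F.one_le_card
  omega

/-- **generic rigid divisors on the two components** -/
theorem rigid : NodalRigid (ResidueField ↥A) ↥(modularFunctionFieldFullC (ResidueField ↥A) M)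
    ↥(modularFunctionFieldFullC (ResidueField ↥A) M) F.X.N.e2 F.X.gk
    (F.X.gk + F.X.S.card - 1) := by
  haveI := F.nonempty_nodes
  have h := Fermat.Agent.S34.NodalRigidOfRiemann.nodalRigid F.X.Hk F.X.Hk F.X.N.e2
    F.X.e2_injective
  rwa [Fintype.card_coe] at h

/-- **Riemann's inequality on `E` in degree `g₁ + m₂`** -/
theorem riemannGe : Fermat.Agent.S18.CoreDefs.RiemannGe Kb ↥(modularFunctionFieldBar (M * q))
    (F.X.gk + (F.X.gk + F.X.S.card - 1)) :=
  Fermat.Agent.S18.NonSpecialAdapter.riemannGe_of_riemannHyp F.X.HL F.genus_sum.le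

include F in
/-- all places of `E` have degree one -/
theorem deg_eq_one (P : Place Kb ↥(modularFunctionFieldBar (M * q))) : P.deg = 1 :=
  Fermat.Agent.S24.Ord.deg_eq_one (Fermat.Agent.S24.Degree.isFF (M * q)) P

include F in
/-- all places of the components have degree one -/
theorem deg_eq_one_k
    (Q : Place (ResidueField ↥A) ↥(modularFunctionFieldFullC (ResidueField ↥A) M)) :
    Q.deg = 1 := F.X.Hk.deg_one Q

/-! ### the parameters `x_i - c` -/

/-- the parameter `x₁ - c` on the first component -/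
def T1 (c : A) : F.X.N.R1.O := F.X.x1 - constHom F.X.N.R1.toBranch c

/-- the parameter `x₂ - c` on the second component -/
def T2 (c : A) : F.X.N.R2.O := F.X.x2 - constHom F.X.N.R2.toBranch c

theorem coe_T1 (c : A) :
    ((F.T1 c : F.X.N.R1.O) : ↥(modularFunctionFieldBar (M * q))) =
      ((F.X.x1 : F.X.N.R1.O) : ↥(modularFunctionFieldBar (M * q))) -
        algebraMap Kb ↥(modularFunctionFieldBar (M * q)) (c : Kb) := rfl

theorem coe_T2 (c : A) :
    ((F.T2 c : F.X.N.R2.O) : ↥(modularFunctionFieldBar (M * q))) =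
      ((F.X.x2 : F.X.N.R2.O) : ↥(modularFunctionFieldBar (M * q))) -
        algebraMap Kb ↥(modularFunctionFieldBar (M * q)) (c : Kb) := rfl

theorem red_T1 (c : A) :
    F.X.N.R1.red (F.T1 c) = Fermat.Agent.S18.B.FkBasics.jk (ResidueField ↥A) M -
      algebraMap (ResidueField ↥A) ↥(modularFunctionFieldFullC (ResidueField ↥A) M)
        (residue ↥A c) :=
  (map_sub F.X.N.R1.red F.X.x1 (constHom F.X.N.R1.toBranch c)).trans
    (congrArg₂ (· - ·) F.X.hx1 (red_constHom F.X.N.R1.toBranch c))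

theorem red_T2 (c : A) :
    F.X.N.R2.red (F.T2 c) = Fermat.Agent.S18.B.FkBasics.jk (ResidueField ↥A) M -
      algebraMap (ResidueField ↥A) ↥(modularFunctionFieldFullC (ResidueField ↥A) M)
        (residue ↥A c) :=
  (map_sub F.X.N.R2.red F.X.x2 (constHom F.X.N.R2.toBranch c)).trans
    (congrArg₂ (· - ·) F.X.hx2 (red_constHom F.X.N.R2.toBranch c))

/-- `x₁ - c` is moved to `x₁ - σ c` -/
theorem smul_T1 (σ : Kb ≃ₐ[ℚ] Kb) (c : A) :
    arithmeticGalois (modularFunctionFieldFull (M * q)) σ •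
        ((F.T1 c : F.X.N.R1.O) : ↥(modularFunctionFieldBar (M * q))) =
      ((F.X.x1 : F.X.N.R1.O) : ↥(modularFunctionFieldBar (M * q))) -
        algebraMap Kb ↥(modularFunctionFieldBar (M * q)) (σ (c : Kb)) := by
  rw [coe_T1, smul_sub, F.x1_fixed σ, SemilinearAut.smul_algebraMap,
    Fermat.Agent.S19.SymmX0.baseAut_arithmeticGalois_apply]

/-- `x₂ - c` is moved to `x₂ - σ c` -/
theorem smul_T2 (σ : Kb ≃ₐ[ℚ] Kb) (c : A) :
    arithmeticGalois (modularFunctionFieldFull (M * q)) σ •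
        ((F.T2 c : F.X.N.R2.O) : ↥(modularFunctionFieldBar (M * q))) =
      ((F.X.x2 : F.X.N.R2.O) : ↥(modularFunctionFieldBar (M * q))) -
        algebraMap Kb ↥(modularFunctionFieldBar (M * q)) (σ (c : Kb)) := by
  rw [coe_T2, smul_sub, F.x2_fixed σ, SemilinearAut.smul_algebraMap,
    Fermat.Agent.S19.SymmX0.baseAut_arithmeticGalois_apply]

/-- **`x₁ - c` is fixed by `σ` when `c` is** -/
theorem smul_param_1 {σ : Kb ≃ₐ[ℚ] Kb} {c : A} (hc : σ (c : Kb) = (c : Kb)) :
    arithmeticGalois (modularFunctionFieldFull (M * q)) σ •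
        ((F.T1 c : F.X.N.R1.O) : ↥(modularFunctionFieldBar (M * q))) =
      ((F.T1 c : F.X.N.R1.O) : ↥(modularFunctionFieldBar (M * q))) := by
  rw [smul_T1, hc, coe_T1]

/-- **`x₂ - c` is fixed by `σ` when `c` is** -/
theorem smul_param_2 {σ : Kb ≃ₐ[ℚ] Kb} {c : A} (hc : σ (c : Kb) = (c : Kb)) :
    arithmeticGalois (modularFunctionFieldFull (M * q)) σ •
        ((F.T2 c : F.X.N.R2.O) : ↥(modularFunctionFieldBar (M * q))) =
      ((F.T2 c : F.X.N.R2.O) : ↥(modularFunctionFieldBar (M * q))) := by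
  rw [smul_T2, hc, coe_T2]

/-! ### the bad places -/

/-- the bad places of the first component: not generic, ramified for `j̄`, or under a pole of
`x₁` -/
def Bad1 : Set (Place (ResidueField ↥A) ↥(modularFunctionFieldFullC (ResidueField ↥A) M)) :=
  ({Q | ¬ ∃ γ : ResidueField ↥A, Q.ord (F.X.N.R1.red F.X.x1 -
      algebraMap (ResidueField ↥A) ↥(modularFunctionFieldFullC (ResidueField ↥A) M) γ) = 1} ∪
    {Q | ∃ P : Place Kb ↥(modularFunctionFieldBar (M * q)),
      P.ord ((F.X.x1 : F.X.N.R1.O) : ↥(modularFunctionFieldBar (M * q))) < 0 ∧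
        F.X.N.R1.r P = some Q}) ∪ (F.X.N.R1.good)ᶜ

/-- the bad places of the second component -/
def Bad2 : Set (Place (ResidueField ↥A) ↥(modularFunctionFieldFullC (ResidueField ↥A) M)) :=
  ({Q | ¬ ∃ γ : ResidueField ↥A, Q.ord (F.X.N.R2.red F.X.x2 -
      algebraMap (ResidueField ↥A) ↥(modularFunctionFieldFullC (ResidueField ↥A) M) γ) = 1} ∪
    {Q | ∃ P : Place Kb ↥(modularFunctionFieldBar (M * q)),
      P.ord ((F.X.x2 : F.X.N.R2.O) : ↥(modularFunctionFieldBar (M * q))) < 0 ∧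
        F.X.N.R2.r P = some Q}) ∪ (F.X.N.R2.good)ᶜ

theorem finite_Bad1 : F.Bad1.Finite :=
  ((Fermat.Agent.S34.NodalCoreX0.finite_not_simple_of_eq_jk F.X.hx1).union
    (finite_image_poles F.X.N.R1.r _)).union F.X.N.finite_compl_good1

theorem finite_Bad2 : F.Bad2.Finite :=
  ((Fermat.Agent.S34.NodalCoreX0.finite_not_simple_of_eq_jk F.X.hx2).union
    (finite_image_poles F.X.N.R2.r _)).union F.X.N.finite_compl_good2

theorem good_of_not_mem_Bad1
    {Q : Place (ResidueField ↥A) ↥(modularFunctionFieldFullC (ResidueField ↥A) M)}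
    (hQ : Q ∉ F.Bad1) : Q ∈ F.X.N.R1.good := by
  by_contra h
  exact hQ (Or.inr h)

theorem good_of_not_mem_Bad2
    {Q : Place (ResidueField ↥A) ↥(modularFunctionFieldFullC (ResidueField ↥A) M)}
    (hQ : Q ∉ F.Bad2) : Q ∈ F.X.N.R2.good := by
  by_contra h
  exact hQ (Or.inr h)

/-! ### inertia-fixed good parameters -/

/-- the zero of `x₁ - c`, `c ∈ WQ A`, on a disc where it is a good parameter is fixed by the
inertia group -/
theorem smul_zero_1 {c : A} (hc : (c : Kb) ∈ WQ A)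
    {Q : Place (ResidueField ↥A) ↥(modularFunctionFieldFullC (ResidueField ↥A) M)}
    (hgood : IsGoodParam F.X.N.R1 (F.T1 c) Q)
    {P0 : Place Kb ↥(modularFunctionFieldBar (M * q))} (hP0 : F.X.N.R1.r P0 = some Q)
    (hz : 0 < P0.ord ((F.T1 c : F.X.N.R1.O) : ↥(modularFunctionFieldBar (M * q))))
    {σ : Kb ≃ₐ[ℚ] Kb} (hσ : σ ∈ A.inertiaSubgroupIn ℚ) :
    arithmeticGalois (modularFunctionFieldFull (M * q)) σ • P0 = P0 :=
  smul_zero_eq_of_fixed F.X.N.R1 _ (F.X.r1_smul σ hσ) hgood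
    (F.smul_param_1 (inertia_fixed hc hσ)) hP0 hz

/-- the zero of `x₂ - c`, `c ∈ WQ A`, on a disc where it is a good parameter is fixed by the
inertia group -/
theorem smul_zero_2 {c : A} (hc : (c : Kb) ∈ WQ A)
    {Q : Place (ResidueField ↥A) ↥(modularFunctionFieldFullC (ResidueField ↥A) M)}
    (hgood : IsGoodParam F.X.N.R2 (F.T2 c) Q)
    {P0 : Place Kb ↥(modularFunctionFieldBar (M * q))} (hP0 : F.X.N.R2.r P0 = some Q)
    (hz : 0 < P0.ord ((F.T2 c : F.X.N.R2.O) : ↥(modularFunctionFieldBar (M * q))))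
    {σ : Kb ≃ₐ[ℚ] Kb} (hσ : σ ∈ A.inertiaSubgroupIn ℚ) :
    arithmeticGalois (modularFunctionFieldFull (M * q)) σ • P0 = P0 :=
  smul_zero_eq_of_fixed F.X.N.R2 _ (F.X.r2_smul σ hσ) hgood
    (F.smul_param_2 (inertia_fixed hc hσ)) hP0 hz

include hA in
/-- **inertia-fixed good parameter on the first component.**  For `Q ∉ Bad1` there are
`c ∈ WQ A = A^I` and a place `P0` of `E` in the disc of `Q` such that `x₁ - c` is a good parameter
on the disc with zero `P0`, and `P0` is fixed by the inertia group. -/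
theorem exists_fixed_param_1
    (Q : Place (ResidueField ↥A) ↥(modularFunctionFieldFullC (ResidueField ↥A) M))
    (hQ : Q ∉ F.Bad1) :
    ∃ (c : A) (P0 : Place Kb ↥(modularFunctionFieldBar (M * q))), (c : Kb) ∈ WQ A ∧
      IsGoodParam F.X.N.R1 (F.T1 c) Q ∧ F.X.N.R1.r P0 = some Q ∧
      0 < P0.ord ((F.T1 c : F.X.N.R1.O) : ↥(modularFunctionFieldBar (M * q))) ∧
      ∀ σ ∈ A.inertiaSubgroupIn ℚ,
        arithmeticGalois (modularFunctionFieldFull (M * q)) σ • P0 = P0 := by
  have hQ1 : ∃ γ : ResidueField ↥A, Q.ord (F.X.N.R1.red F.X.x1 -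
      algebraMap (ResidueField ↥A) ↥(modularFunctionFieldFullC (ResidueField ↥A) M) γ) = 1 := by
    by_contra hcon
    exact hQ (Or.inl (Or.inl hcon))
  have hQ2 : RegOn F.X.N.R1.r
      ((F.X.x1 : F.X.N.R1.O) : ↥(modularFunctionFieldBar (M * q))) Q := by
    apply regOn_of_ord_nonneg
    intro P hP
    by_contra hcon
    rw [not_le] at hcon
    exact hQ (Or.inl (Or.inr ⟨P, hcon, hP⟩))
  obtain ⟨γ, hγ⟩ := hQ1
  obtain ⟨c, hcW, rfl⟩ := Fermat.Agent.S19.ChartX0.exists_WQ_lift A hA γ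
  have hgood : IsGoodParam F.X.N.R1 (F.T1 c) Q := by
    refine ⟨F.good_of_not_mem_Bad1 hQ, ?_, ?_⟩
    · rw [coe_T1]
      exact hQ2.sub (regOn_const _ _ Q)
    · rw [red_T1, ← F.X.hx1]
      exact hγ
  obtain ⟨P0, hP0, hord, -⟩ := hgood.exists_unique_zero
  exact ⟨c, P0, hcW, hgood, hP0, by rw [hord]; exact one_pos,
    fun σ hσ => F.smul_zero_1 hcW hgood hP0 (by rw [hord]; exact one_pos) hσ⟩

include hA in
/-- **inertia-fixed good parameter on the second component.** -/
theorem exists_fixed_param_2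
    (Q : Place (ResidueField ↥A) ↥(modularFunctionFieldFullC (ResidueField ↥A) M))
    (hQ : Q ∉ F.Bad2) :
    ∃ (c : A) (P0 : Place Kb ↥(modularFunctionFieldBar (M * q))), (c : Kb) ∈ WQ A ∧
      IsGoodParam F.X.N.R2 (F.T2 c) Q ∧ F.X.N.R2.r P0 = some Q ∧
      0 < P0.ord ((F.T2 c : F.X.N.R2.O) : ↥(modularFunctionFieldBar (M * q))) ∧
      ∀ σ ∈ A.inertiaSubgroupIn ℚ,
        arithmeticGalois (modularFunctionFieldFull (M * q)) σ • P0 = P0 := by
  have hQ1 : ∃ γ : ResidueField ↥A, Q.ord (F.X.N.R2.red F.X.x2 -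
      algebraMap (ResidueField ↥A) ↥(modularFunctionFieldFullC (ResidueField ↥A) M) γ) = 1 := by
    by_contra hcon
    exact hQ (Or.inl (Or.inl hcon))
  have hQ2 : RegOn F.X.N.R2.r
      ((F.X.x2 : F.X.N.R2.O) : ↥(modularFunctionFieldBar (M * q))) Q := by
    apply regOn_of_ord_nonneg
    intro P hP
    by_contra hcon
    rw [not_le] at hcon
    exact hQ (Or.inl (Or.inr ⟨P, hcon, hP⟩))
  obtain ⟨γ, hγ⟩ := hQ1
  obtain ⟨c, hcW, rfl⟩ := Fermat.Agent.S19.ChartX0.exists_WQ_lift A hA γ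
  have hgood : IsGoodParam F.X.N.R2 (F.T2 c) Q := by
    refine ⟨F.good_of_not_mem_Bad2 hQ, ?_, ?_⟩
    · rw [coe_T2]
      exact hQ2.sub (regOn_const _ _ Q)
    · rw [red_T2, ← F.X.hx2]
      exact hγ
  obtain ⟨P0, hP0, hord, -⟩ := hgood.exists_unique_zero
  exact ⟨c, P0, hcW, hgood, hP0, by rw [hord]; exact one_pos,
    fun σ hσ => F.smul_zero_2 hcW hgood hP0 (by rw [hord]; exact one_pos) hσ⟩

/-! ### chart points -/

/-- **A rigid family of chart points on the two components**: `g₁ = g(M)` generic places `Q1 i`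
of the first component with `L(∑ Q1) = k`, `m₂ = g(M) + #S - 1` generic places `Q2 j` of the
second component such that no nonzero element of `L(∑ Q2)` vanishes at all the nodes, with
inertia-fixed good parameters `x₁ - c1 i`, `x₂ - c2 j` and their zeros `P1 i`, `P2 j`. -/
structure ChartPts where
  /-- the centres on the first component -/
  Q1 : Fin F.X.gk → Place (ResidueField ↥A) ↥(modularFunctionFieldFullC (ResidueField ↥A) M)
  /-- the centres on the second component -/
  Q2 : Fin (F.X.gk + F.X.S.card - 1) →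
    Place (ResidueField ↥A) ↥(modularFunctionFieldFullC (ResidueField ↥A) M)
  /-- the constants: the parameter on the disc of `Q1 i` is `x₁ - c1 i` -/
  c1 : Fin F.X.gk → A
  /-- the constants: the parameter on the disc of `Q2 j` is `x₂ - c2 j` -/
  c2 : Fin (F.X.gk + F.X.S.card - 1) → A
  /-- the zeros of the parameters -/
  P1 : Fin F.X.gk → Place Kb ↥(modularFunctionFieldBar (M * q))
  /-- the zeros of the parameters -/
  P2 : Fin (F.X.gk + F.X.S.card - 1) → Place Kb ↥(modularFunctionFieldBar (M * q))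
  Q1_inj : Function.Injective Q1
  Q2_inj : Function.Injective Q2
  rigid1 : ∀ y : ↥(modularFunctionFieldFullC (ResidueField ↥A) M),
    y ∈ riemannRochSpace (∑ i, Finsupp.single (Q1 i) (1 : ℤ)) → ∃ γ : ResidueField ↥A,
      y = algebraMap (ResidueField ↥A) ↥(modularFunctionFieldFullC (ResidueField ↥A) M) γ
  rigid2 : ∀ y : ↥(modularFunctionFieldFullC (ResidueField ↥A) M),
    y ∈ riemannRochSpace (∑ i, Finsupp.single (Q2 i) (1 : ℤ)) →
      (∀ e, y = 0 ∨ 0 < (F.X.N.e2 e).ord y) → y = 0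
  hc1 : ∀ i, ((c1 i : A) : Kb) ∈ WQ A
  hc2 : ∀ j, ((c2 j : A) : Kb) ∈ WQ A
  good1 : ∀ i, IsGoodParam F.X.N.R1 (F.T1 (c1 i)) (Q1 i)
  good2 : ∀ j, IsGoodParam F.X.N.R2 (F.T2 (c2 j)) (Q2 j)
  hP1 : ∀ i, F.X.N.R1.r (P1 i) = some (Q1 i)
  hP2 : ∀ j, F.X.N.R2.r (P2 j) = some (Q2 j)
  zero1 : ∀ i, 0 < (P1 i).ord ((F.T1 (c1 i) : F.X.N.R1.O) : ↥(modularFunctionFieldBar (M * q)))
  zero2 : ∀ j, 0 < (P2 j).ord ((F.T2 (c2 j) : F.X.N.R2.O) : ↥(modularFunctionFieldBar (M * q)))

namespace ChartPts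

variable {F} (d : F.ChartPts)

/-- the parameters of the first family are fixed by the inertia group -/
theorem smul_T1 {σ : Kb ≃ₐ[ℚ] Kb} (hσ : σ ∈ A.inertiaSubgroupIn ℚ) (i : Fin F.X.gk) :
    arithmeticGalois (modularFunctionFieldFull (M * q)) σ •
        ((F.T1 (d.c1 i) : F.X.N.R1.O) : ↥(modularFunctionFieldBar (M * q))) =
      ((F.T1 (d.c1 i) : F.X.N.R1.O) : ↥(modularFunctionFieldBar (M * q))) :=
  F.smul_param_1 (inertia_fixed (d.hc1 i) hσ)

/-- the parameters of the second family are fixed by the inertia group -/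
theorem smul_T2 {σ : Kb ≃ₐ[ℚ] Kb} (hσ : σ ∈ A.inertiaSubgroupIn ℚ)
    (j : Fin (F.X.gk + F.X.S.card - 1)) :
    arithmeticGalois (modularFunctionFieldFull (M * q)) σ •
        ((F.T2 (d.c2 j) : F.X.N.R2.O) : ↥(modularFunctionFieldBar (M * q))) =
      ((F.T2 (d.c2 j) : F.X.N.R2.O) : ↥(modularFunctionFieldBar (M * q))) :=
  F.smul_param_2 (inertia_fixed (d.hc2 j) hσ)

/-- the base points of the first family are fixed by the inertia group -/
theorem smul_P1 {σ : Kb ≃ₐ[ℚ] Kb} (hσ : σ ∈ A.inertiaSubgroupIn ℚ) (i : Fin F.X.gk) :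
    arithmeticGalois (modularFunctionFieldFull (M * q)) σ • d.P1 i = d.P1 i :=
  F.smul_zero_1 (d.hc1 i) (d.good1 i) (d.hP1 i) (d.zero1 i) hσ

/-- the base points of the second family are fixed by the inertia group -/
theorem smul_P2 {σ : Kb ≃ₐ[ℚ] Kb} (hσ : σ ∈ A.inertiaSubgroupIn ℚ)
    (j : Fin (F.X.gk + F.X.S.card - 1)) :
    arithmeticGalois (modularFunctionFieldFull (M * q)) σ • d.P2 j = d.P2 j :=
  F.smul_zero_2 (d.hc2 j) (d.good2 j) (d.hP2 j) (d.zero2 j) hσ

theorem P1_inj : Function.Injective d.P1 := fun i i' h =>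
  d.Q1_inj (Option.some_injective _ (by rw [← d.hP1 i, ← d.hP1 i', h]))

theorem P2_inj : Function.Injective d.P2 := fun j j' h =>
  d.Q2_inj (Option.some_injective _ (by rw [← d.hP2 j, ← d.hP2 j', h]))

theorem Q1_good (i : Fin F.X.gk) : d.Q1 i ∈ F.X.N.R1.good := (d.good1 i).good

theorem Q2_good (j : Fin (F.X.gk + F.X.S.card - 1)) : d.Q2 j ∈ F.X.N.R2.good := (d.good2 j).good

/-- a base point of the first family is not a base point of the second -/
theorem P1_ne_P2 (i : Fin F.X.gk) (j : Fin (F.X.gk + F.X.S.card - 1)) : d.P1 i ≠ d.P2 j :=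
  fun h => F.X.N.excl (d.P1 i) (d.Q1 i) (d.Q2 j) (d.hP1 i) (h ▸ d.hP2 j)

end ChartPts

/-- **existence of chart points** off any finite sets of places of the two components -/
theorem exists_chartPts
    (B1 B2 : Set (Place (ResidueField ↥A) ↥(modularFunctionFieldFullC (ResidueField ↥A) M)))
    (hB1 : B1.Finite) (hB2 : B2.Finite) :
    ∃ d : F.ChartPts, (∀ i, d.Q1 i ∉ B1) ∧ (∀ j, d.Q2 j ∉ B2) := by
  obtain ⟨Q1, Q2, hinj1, hinj2, hoff1, hoff2, hrig1, hrig2⟩ :=
    F.rigid (B1 ∪ F.Bad1) (hB1.union F.finite_Bad1) (B2 ∪ F.Bad2) (hB2.union F.finite_Bad2)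
  choose c1 P1 hc1 hgood1 hP1 hz1 _ using
    fun i => F.exists_fixed_param_1 (Q1 i) (fun h => hoff1 i (Or.inr h))
  choose c2 P2 hc2 hgood2 hP2 hz2 _ using
    fun j => F.exists_fixed_param_2 (Q2 j) (fun h => hoff2 j (Or.inr h))
  exact ⟨⟨Q1, Q2, c1, c2, P1, P2, hinj1, hinj2, hrig1, hrig2, hc1, hc2, hgood1, hgood2, hP1, hP2,
    hz1, hz2⟩, fun i h => hoff1 i (Or.inl h), fun j h => hoff2 j (Or.inl h)⟩

/-- two disjoint families of chart points (the origin chart and the auxiliary family of the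
interpolation datum), off any finite sets -/
theorem exists_chartPts_pair
    (B1 B2 : Set (Place (ResidueField ↥A) ↥(modularFunctionFieldFullC (ResidueField ↥A) M)))
    (hB1 : B1.Finite) (hB2 : B2.Finite) :
    ∃ d d' : F.ChartPts, (∀ i, d.Q1 i ∉ B1) ∧ (∀ j, d.Q2 j ∉ B2) ∧ (∀ i, d'.Q1 i ∉ B1) ∧
      (∀ j, d'.Q2 j ∉ B2) ∧ (∀ i i', d.Q1 i ≠ d'.Q1 i') ∧ ∀ j j', d.Q2 j ≠ d'.Q2 j' := by
  obtain ⟨d, hd1, hd2⟩ := F.exists_chartPts B1 B2 hB1 hB2
  obtain ⟨d', hd1', hd2'⟩ := F.exists_chartPts (B1 ∪ Set.range d.Q1) (B2 ∪ Set.range d.Q2)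
    (hB1.union (Set.finite_range _)) (hB2.union (Set.finite_range _))
  exact ⟨d, d', hd1, hd2, fun i h => hd1' i (Or.inl h), fun j h => hd2' j (Or.inl h),
    fun i i' h => hd1' i' (Or.inr ⟨i, h⟩), fun j j' h => hd2' j' (Or.inr ⟨j, h⟩)⟩

end ChartFrame

end Fermat.Agent.S33.X0.Frame
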