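import Mathlib
import Fermat.Agent.S34.CoreZX0Datum
import Fermat.Agent.S34.OrthoPairX0

/-!
# PROJECT N (S33), frame leaf `X0/OrthoPair` (helper10): the pair `OrthoHyp` of an `X0Datum`

For ANY `X : CoreZX0Datum.X0Datum hA hqM` (main's nodal record at `X₀(M q)`, `A ∣ q`, `q ∤ M`;
nothing about a torsion prime: use it at `q = p`), the two branches `X.N.R1`, `X.N.R2` with THEIR
OWN reduction maps form a pair datum of `S34/OrthoPairTwoExt` (`pairOfDatum`: the Gauss rings are
`V1X0`, `V2X0` by `X.O1_eq`, `X.O2_eq`; kernel and constants are fields of `Branch`).  Hence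
`S34/OrthoPairX0` applies verbatim:

* `exists_red_independent` : every finite-dimensional `ℚ̄`-subspace `W ≤ E` contains `finrank W`
  elements of `X.N.R1.O ∩ X.N.R2.O` whose pairs of reductions `(X.N.R1.red, X.N.R2.red)` are
  `k`-linearly independent in `F₁ × F₂`;
* `finrank_le` : `finrank ℚ̄ W ≤ finrank k V` whenever the pairs of reductions of
  `W ∩ X.N.R1.O ∩ X.N.R2.O` lie in `V`.
-/

set_option autoImplicit false
set_option linter.unusedSectionVars false

noncomputable section

namespace Fermat.Agent.S33.X0.OrthoPair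

open ModularCurve AlgebraicCurve IsLocalRing
open Fermat.Agent.S37.Gauss.Datum
open Fermat.Agent.S34.TwoGaussX0 Fermat.Agent.S34.OrthoPairTwoExt
open Fermat.Agent.S34.CoreZX0Datum Fermat.Agent.S34.Z1X0

local notation "Kb" => AlgebraicClosure ℚ

variable {q : ℕ} [hq : Fact q.Prime] {M : ℕ} [NeZero M] {A : ValuationSubring Kb} [NeZero q]
variable {hA : A.LiesOverPrime q} {hqM : ¬ q ∣ M}

attribute [local instance] algFE
attribute [local instance] Fermat.Agent.S34.OrthoPairX0.isScalarTowerFE

set_option synthInstance.maxHeartbeats 400000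
set_option maxHeartbeats 1600000

/-- the pair datum of `OrthoPairTwoExt` made of the two branches of an `X0Datum`, with the
reduction maps of the datum itself -/
def pairOfDatum (X : X0Datum hA hqM) :
    Pair (gaussDatum M A hA hqM) (setupX0 hA hqM)
      ↥(modularFunctionFieldFullC (ResidueField ↥A) M)
      ↥(modularFunctionFieldFullC (ResidueField ↥A) M) where
  V₁ := X.N.R1.O
  V₂ := X.N.R2.O
  h₁ := by
    rw [X.O1_eq]
    exact isExt_V1X0 hA hqM
  h₂ := by
    rw [X.O2_eq]
    exact isExt_V2X0 hA hqM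
  ρ₁ := X.N.R1.red
  ρ₂ := X.N.R2.red
  ker₁ := fun y => by
    rw [X.N.R1.red_eq_zero_iff, ValuationSubring.coe_mem_nonunits_iff,
      IsLocalRing.mem_maximalIdeal, mem_nonunits_iff]
  ker₂ := fun y => by
    rw [X.N.R2.red_eq_zero_iff, ValuationSubring.coe_mem_nonunits_iff,
      IsLocalRing.mem_maximalIdeal, mem_nonunits_iff]
  const₁ := fun a y hy => by
    have : y = ⟨algebraMap Kb ↥(modularFunctionFieldBar (M * q)) (a : Kb),
        X.N.R1.algebraMap_mem a⟩ := Subtype.ext hy
    rw [this]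
    exact X.N.R1.red_algebraMap a
  const₂ := fun a y hy => by
    have : y = ⟨algebraMap Kb ↥(modularFunctionFieldBar (M * q)) (a : Kb),
        X.N.R2.algebraMap_mem a⟩ := Subtype.ext hy
    rw [this]
    exact X.N.R2.red_algebraMap a

theorem pairOfDatum_V₁ (X : X0Datum hA hqM) : (pairOfDatum X).V₁ = X.N.R1.O := rfl

theorem pairOfDatum_V₂ (X : X0Datum hA hqM) : (pairOfDatum X).V₂ = X.N.R2.O := rfl

/-- **full-rank reduction for the two branches of an `X0Datum`**, existence form -/
theorem exists_red_independent (X : X0Datum hA hqM)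
    (W : Submodule Kb ↥(modularFunctionFieldBar (M * q))) [FiniteDimensional Kb W] :
    ∃ g : Fin (Module.finrank Kb W) → ↥(modularFunctionFieldBar (M * q)),
      (∀ j, g j ∈ W) ∧ ∃ (h1 : ∀ j, g j ∈ X.N.R1.O) (h2 : ∀ j, g j ∈ X.N.R2.O),
        LinearIndependent (ResidueField ↥A) fun j =>
          (X.N.R1.red ⟨g j, h1 j⟩, X.N.R2.red ⟨g j, h2 j⟩) := by
  obtain ⟨g, hgW, hli⟩ :=
    Fermat.Agent.S34.OrthoPairX0.exists_red_independent hA hqM (pairOfDatum X) W
  refine ⟨fun j => ((g j : (pairOfDatum X).redRing.R) : ↥(modularFunctionFieldBar (M * q))), hgW,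
    fun j => (((pairOfDatum X).mem_R_iff _).mp (g j).2).1,
    fun j => (((pairOfDatum X).mem_R_iff _).mp (g j).2).2, ?_⟩
  exact hli

/-- **full-rank reduction for the two branches of an `X0Datum`**, dimension form -/
theorem finrank_le (X : X0Datum hA hqM)
    (W : Submodule Kb ↥(modularFunctionFieldBar (M * q))) [FiniteDimensional Kb W]
    (V : Submodule (ResidueField ↥A)
      (↥(modularFunctionFieldFullC (ResidueField ↥A) M) ×
        ↥(modularFunctionFieldFullC (ResidueField ↥A) M)))
    [FiniteDimensional (ResidueField ↥A) V]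
    (hV : ∀ (f : ↥(modularFunctionFieldBar (M * q))) (h1 : f ∈ X.N.R1.O) (h2 : f ∈ X.N.R2.O),
      f ∈ W → (X.N.R1.red ⟨f, h1⟩, X.N.R2.red ⟨f, h2⟩) ∈ V) :
    Module.finrank Kb W ≤ Module.finrank (ResidueField ↥A) V :=
  Fermat.Agent.S34.OrthoPairX0.finrank_le hA hqM (pairOfDatum X) W V fun f hf =>
    hV _ (((pairOfDatum X).mem_R_iff _).mp f.2).1 (((pairOfDatum X).mem_R_iff _).mp f.2).2 hf

end Fermat.Agent.S33.X0.OrthoPair
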