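import Mathlib
import Fermat.Agent.S33.X0.OrthoPair
import Fermat.Agent.S33.Nodal.SemiCont

/-!
# PROJECT N (S33), frame leaf `X0/OrthoAdapter` (helper10): `OrthoPair X.N` for every `X0Datum`

The hypothesis `Nodal.SemiCont.OrthoPair N` of the nodal chart (helper22's literal: every
finite-dimensional `W ≤ FL` contains `finrank W` elements of `O₁ ∩ O₂` whose reduction pairs
`red12` are `k`-linearly independent) holds for the nodal datum `X.N` of ANY
`X : CoreZX0Datum.X0Datum hA hqM`, hence for `F.X.N`, `F : X0.Frame.ChartFrame hA hqM`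
(`X0/OrthoPair.exists_red_independent`, i.e. `S34/OrthoPairX0` at the pair datum made of the two
branches of `X`).  No hypothesis; nothing about a torsion prime.
-/

set_option autoImplicit false
set_option linter.unusedSectionVars false

namespace Fermat.Agent.S33.X0.OrthoAdapter

open ModularCurve AlgebraicCurve IsLocalRing
open Fermat.Agent.S34.CoreZX0Datum Fermat.Agent.S33.Nodal.Glued Fermat.Agent.S33.Nodal.SemiCont

local notation "Kb" => AlgebraicClosure ℚ

variable {q : ℕ} [hq : Fact q.Prime] {M : ℕ} [NeZero M] {A : ValuationSubring Kb} [NeZero q]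
variable {hA : A.LiesOverPrime q} {hqM : ¬ q ∣ M}

/-- **the pair orthonormal-basis hypothesis holds at `X₀(M q)`**, for the nodal datum of any
`X0Datum` -/
theorem orthoPair (X : X0Datum hA hqM) : OrthoPair X.N := by
  intro W _
  obtain ⟨g, hgW, h1, h2, hli⟩ := Fermat.Agent.S33.X0.OrthoPair.exists_red_independent X W
  exact ⟨fun j => ⟨g j, (mem_O12 X.N).mpr ⟨h1 j, h2 j⟩⟩, hgW, hli⟩

end Fermat.Agent.S33.X0.OrthoAdapter
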