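/-
PROJECT N (S33), route H8, leaf X0/ChartX0 (helper8): THE NODAL CHART AND THE NODAL INTERPOLATION
DATUM OF `E = ℚ̄(X₀(M q))` AT `A ∣ q`, `q ∤ M`, from helper6's chart points.

* `disc1 d i`, `disc2 d j` : the discs (`Taylor.DiscParam`) of a family of chart points
  `d : F.ChartPts`;
* `chartOf d hoff : NodalChart F.X.N g₁ m₂` : the origin chart of `S33/Nodal/Chart.lean`;
* `datumOf d d' h1 h2 : NDatum F.X.N g₁ m₂` : the interpolation datum of `S33/Nodal/Datum.lean`
  (chart family `d`, auxiliary family `d'`);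
* the numerical packs at `F` (`hπ`, `hdegL`, `hdeg_k`, `hR`, `hL`, `hO`, finiteness);
* the inertia facts, in the binder shapes of `Nodal/Chart.coord_map` / `coord_fixed`.
-/
import Fermat.Agent.S33.X0.Frame
import Fermat.Agent.S33.X0.OrthoAdapter
import Fermat.Agent.S33.Nodal.Chart
import Fermat.Agent.S33.Nodal.Datum

set_option autoImplicit false
set_option linter.unusedSectionVars false
set_option linter.unusedVariables false
set_option linter.style.haveILetI false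
set_option synthInstance.maxHeartbeats 400000

noncomputable section

namespace Fermat.Agent.S33.X0.ChartX0

open ModularCurve AlgebraicCurve IsLocalRing
open Fermat.Agent.S34.NodalDefs Fermat.Agent.S34.NodalDisc Fermat.Agent.S34.CoreZX0Datum
open Fermat.Agent.S33.Nodal.Taylor Fermat.Agent.S33.Nodal.Datum Fermat.Agent.S33.Nodal.Chart
open Fermat.Agent.S33.Nodal.Rigid3
open Fermat.Agent.S33.X0.Frame

local notation "Kb" => AlgebraicClosure ℚ

variable {q : ℕ} [hq : Fact q.Prime] {M : ℕ} [NeZero M] {A : ValuationSubring Kb} [NeZero q]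
variable {hA : A.LiesOverPrime q} {hqM : ¬ q ∣ M}

/-- local instance: principal divisors on `E` -/
local instance instPDBar (N : ℕ) [NeZero N] :
    HasPrincipalDivisors Kb ↥(modularFunctionFieldBar N) :=
  Fermat.Agent.S18.A.Instances.hasPrincipalDivisors_bar N

local instance instNeZeroMul : NeZero (M * q) :=
  ⟨Nat.mul_ne_zero (NeZero.ne M) (NeZero.ne q)⟩

variable (F : ChartFrame hA hqM)

/-! ### the discs of a family of chart points -/

/-- the disc of the `i`-th chart point on the first component -/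
def disc1 (d : F.ChartPts) (i : Fin F.X.gk) : DiscParam F.X.N.R1 where
  Q := d.Q1 i
  T := F.T1 (d.c1 i)
  good := d.good1 i
  P0 := d.P1 i
  hP0 := d.hP1 i
  deg_one := F.deg_eq_one _
  zero := adicValuation_lt_one_of_ord_pos _ (d.zero1 i)

/-- the disc of the `j`-th chart point on the second component -/
def disc2 (d : F.ChartPts) (j : Fin (F.X.gk + F.X.S.card - 1)) : DiscParam F.X.N.R2 where
  Q := d.Q2 j
  T := F.T2 (d.c2 j)
  good := d.good2 j
  P0 := d.P2 j
  hP0 := d.hP2 j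
  deg_one := F.deg_eq_one _
  zero := adicValuation_lt_one_of_ord_pos _ (d.zero2 j)

/-- a family of chart points is a rigid pair -/
theorem isRigidPair (d : F.ChartPts) : IsRigidPair F.X.N d.Q1 d.Q2 :=
  ⟨d.Q1_inj, d.Q2_inj, d.Q1_good, d.Q2_good, d.rigid1, d.rigid2⟩

/-! ### the chart -/

/-- **the nodal origin chart of a family of chart points** off the auxiliary disc `Qstar` -/
def chartOf (d : F.ChartPts) (hoff : ∀ i, d.Q1 i ≠ F.X.Qstar) :
    NodalChart F.X.N F.X.gk (F.X.gk + F.X.S.card - 1) where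
  Q1b := d.Q1
  Q2b := d.Q2
  Q1b_inj := d.Q1_inj
  Q2b_inj := d.Q2_inj
  rigid1 := d.rigid1
  rigid2 := d.rigid2
  Q1 := d.P1
  Q2 := d.P2
  hQ1 := d.hP1
  hQ2 := d.hP2
  T1 := fun i => F.T1 (d.c1 i)
  T2 := fun j => F.T2 (d.c2 j)
  hT1 := d.good1
  hT2 := d.good2
  hT10 := d.zero1
  hT20 := d.zero2
  Pstar := F.X.Pstar
  Qstar := F.X.Qstar
  hQstar := F.X.hQstar
  hstar := F.X.hstar
  hQstar' := hoff

/-- chart points off the auxiliary disc exist, together with an auxiliary family disjoint from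
them -/
theorem exists_chartPts_off :
    ∃ d d' : F.ChartPts, (∀ i, d.Q1 i ≠ F.X.Qstar) ∧ (∀ i i', d.Q1 i ≠ d'.Q1 i') ∧
      ∀ j j', d.Q2 j ≠ d'.Q2 j' := by
  obtain ⟨d, d', h1, -, -, -, h5, h6⟩ :=
    F.exists_chartPts_pair {F.X.Qstar} ∅ (Set.finite_singleton _) Set.finite_empty
  exact ⟨d, d', fun i h => h1 i (by rw [h]; exact Set.mem_singleton _), h5, h6⟩

/-! ### the interpolation datum -/

/-- **the nodal interpolation datum of two disjoint families of chart points** -/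
def datumOf (d d' : F.ChartPts) (h1 : ∀ i i', d.Q1 i ≠ d'.Q1 i')
    (h2 : ∀ j j', d.Q2 j ≠ d'.Q2 j') :
    NDatum F.X.N F.X.gk (F.X.gk + F.X.S.card - 1) where
  DQ1 := disc1 F d
  DQ2 := disc2 F d
  DR1 := disc1 F d'
  DR2 := disc2 F d'
  rigidQ := isRigidPair F d
  rigidR := isRigidPair F d'
  disj1 := h1
  disj2 := h2

section DatumOf

variable (d d' : F.ChartPts) (h1 : ∀ i i', d.Q1 i ≠ d'.Q1 i') (h2 : ∀ j j', d.Q2 j ≠ d'.Q2 j')

theorem datumOf_T1 (i : Fin F.X.gk) : (datumOf F d d' h1 h2).T1 i = F.T1 (d.c1 i) := rfl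

theorem datumOf_T2 (j : Fin (F.X.gk + F.X.S.card - 1)) :
    (datumOf F d d' h1 h2).T2 j = F.T2 (d.c2 j) := rfl

theorem datumOf_v1 (i : Fin F.X.gk) : (datumOf F d d' h1 h2).v1 i = F.T1 (d'.c1 i) := rfl

theorem datumOf_v2 (j : Fin (F.X.gk + F.X.S.card - 1)) :
    (datumOf F d d' h1 h2).v2 j = F.T2 (d'.c2 j) := rfl

theorem datumOf_Q1 (i : Fin F.X.gk) : (datumOf F d d' h1 h2).Q1 i = d.P1 i := rfl

theorem datumOf_Q2 (j : Fin (F.X.gk + F.X.S.card - 1)) :
    (datumOf F d d' h1 h2).Q2 j = d.P2 j := rfl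

theorem datumOf_Qb1 (i : Fin F.X.gk) : (datumOf F d d' h1 h2).Qb1 i = d.Q1 i := rfl

theorem datumOf_Qb2 (j : Fin (F.X.gk + F.X.S.card - 1)) :
    (datumOf F d d' h1 h2).Qb2 j = d.Q2 j := rfl

/-- the parameters of the datum are `x₁ - c`, `c ∈ W_ℚ(A)` (the hypothesis shape of
`X0/FixesX0.fixesDatumX0`) -/
theorem datumOf_hT1 (i : Fin F.X.gk) :
    ∃ c : A, (c : Kb) ∈ Fermat.Agent.S19.ArithX0.WQ A ∧ (datumOf F d d' h1 h2).T1 i = F.T1 c :=
  ⟨d.c1 i, d.hc1 i, rfl⟩

theorem datumOf_hT2 (j : Fin (F.X.gk + F.X.S.card - 1)) :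
    ∃ c : A, (c : Kb) ∈ Fermat.Agent.S19.ArithX0.WQ A ∧ (datumOf F d d' h1 h2).T2 j = F.T2 c :=
  ⟨d.c2 j, d.hc2 j, rfl⟩

theorem datumOf_hv1 (i : Fin F.X.gk) :
    ∃ c : A, (c : Kb) ∈ Fermat.Agent.S19.ArithX0.WQ A ∧ (datumOf F d d' h1 h2).v1 i = F.T1 c :=
  ⟨d'.c1 i, d'.hc1 i, rfl⟩

theorem datumOf_hv2 (j : Fin (F.X.gk + F.X.S.card - 1)) :
    ∃ c : A, (c : Kb) ∈ Fermat.Agent.S19.ArithX0.WQ A ∧ (datumOf F d d' h1 h2).v2 j = F.T2 c :=
  ⟨d'.c2 j, d'.hc2 j, rfl⟩

/-- the chart of the datum is the chart of its first family -/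
theorem chartOf_Q1b (hoff : ∀ i, d.Q1 i ≠ F.X.Qstar) (i : Fin F.X.gk) :
    (chartOf F d hoff).Q1b i = (datumOf F d d' h1 h2).Qb1 i := rfl

theorem chartOf_Q2b (hoff : ∀ i, d.Q1 i ≠ F.X.Qstar) (j : Fin (F.X.gk + F.X.S.card - 1)) :
    (chartOf F d hoff).Q2b j = (datumOf F d d' h1 h2).Qb2 j := rfl

theorem chartOf_T1 (hoff : ∀ i, d.Q1 i ≠ F.X.Qstar) (i : Fin F.X.gk) :
    (chartOf F d hoff).T1 i = (datumOf F d d' h1 h2).T1 i := rfl

theorem chartOf_T2 (hoff : ∀ i, d.Q1 i ≠ F.X.Qstar) (j : Fin (F.X.gk + F.X.S.card - 1)) :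
    (chartOf F d hoff).T2 j = (datumOf F d d' h1 h2).T2 j := rfl

theorem chartOf_Q1 (hoff : ∀ i, d.Q1 i ≠ F.X.Qstar) (i : Fin F.X.gk) :
    (chartOf F d hoff).Q1 i = (datumOf F d d' h1 h2).Q1 i := rfl

theorem chartOf_Q2 (hoff : ∀ i, d.Q1 i ≠ F.X.Qstar) (j : Fin (F.X.gk + F.X.S.card - 1)) :
    (chartOf F d hoff).Q2 j = (datumOf F d d' h1 h2).Q2 j := rfl

end DatumOf

/-! ### the numerical packs -/

/-- the residue map is onto -/
theorem hπ : Function.Surjective (residue ↥A) := IsLocalRing.residue_surjective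

/-- Riemann's hypothesis on `E` in genus `g₁ + m₂` -/
theorem riemannHyp : Fermat.Agent.S18.NonSpecial.RiemannHyp Kb ↥(modularFunctionFieldBar (M * q))
    (F.X.gk + (F.X.gk + F.X.S.card - 1)) := by
  rw [← F.genus_sum]
  exact F.X.HL

/-- the two branches are orthogonal -/
theorem orthoPair : Fermat.Agent.S33.Nodal.SemiCont.OrthoPair F.X.N :=
  Fermat.Agent.S33.X0.OrthoAdapter.orthoPair F.X

include F in
/-- Riemann–Roch spaces of the components are finite-dimensional -/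
theorem finite_k
    (D : Divisor (ResidueField ↥A) ↥(modularFunctionFieldFullC (ResidueField ↥A) M)) :
    Module.Finite (ResidueField ↥A) (riemannRochSpace D) := F.X.Hk.finite D

include F in
/-- Riemann–Roch spaces of `E` are finite-dimensional -/
theorem finite_L (D : Divisor Kb ↥(modularFunctionFieldBar (M * q))) :
    Module.Finite Kb (riemannRochSpace D) := F.X.HL.finite D

/-! ### the inertia facts -/

section Inertia

variable {σ : Kb ≃ₐ[ℚ] Kb} (hσ : σ ∈ A.inertiaSubgroupIn ℚ)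

include hσ

/-- `hr1` of `coord_fixed` -/
theorem hr1 (P : Place Kb ↥(modularFunctionFieldBar (M * q)))
    (Q : Place (ResidueField ↥A) ↥(modularFunctionFieldFullC (ResidueField ↥A) M))
    (h : F.X.N.R1.r P = some Q) :
    F.X.N.R1.r (arithmeticGalois (modularFunctionFieldFull (M * q)) σ • P) = some Q := by
  rw [F.X.r1_smul σ hσ P, h]

/-- `hr2` of `coord_fixed` -/
theorem hr2 (P : Place Kb ↥(modularFunctionFieldBar (M * q)))
    (Q : Place (ResidueField ↥A) ↥(modularFunctionFieldFullC (ResidueField ↥A) M))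
    (h : F.X.N.R2.r P = some Q) :
    F.X.N.R2.r (arithmeticGalois (modularFunctionFieldFull (M * q)) σ • P) = some Q := by
  rw [F.X.r2_smul σ hσ P, h]

/-- the parameters of the chart are fixed -/
theorem chartOf_smul_T1 (d : F.ChartPts) (hoff : ∀ i, d.Q1 i ≠ F.X.Qstar) (i : Fin F.X.gk) :
    arithmeticGalois (modularFunctionFieldFull (M * q)) σ •
        (((chartOf F d hoff).T1 i : F.X.N.R1.O) : ↥(modularFunctionFieldBar (M * q))) =
      (((chartOf F d hoff).T1 i : F.X.N.R1.O) : ↥(modularFunctionFieldBar (M * q))) :=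
  d.smul_T1 hσ i

theorem chartOf_smul_T2 (d : F.ChartPts) (hoff : ∀ i, d.Q1 i ≠ F.X.Qstar)
    (j : Fin (F.X.gk + F.X.S.card - 1)) :
    arithmeticGalois (modularFunctionFieldFull (M * q)) σ •
        (((chartOf F d hoff).T2 j : F.X.N.R2.O) : ↥(modularFunctionFieldBar (M * q))) =
      (((chartOf F d hoff).T2 j : F.X.N.R2.O) : ↥(modularFunctionFieldBar (M * q))) :=
  d.smul_T2 hσ j

/-- the base points of the chart are fixed -/
theorem chartOf_smul_Q1 (d : F.ChartPts) (hoff : ∀ i, d.Q1 i ≠ F.X.Qstar) (i : Fin F.X.gk) :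
    arithmeticGalois (modularFunctionFieldFull (M * q)) σ • (chartOf F d hoff).Q1 i =
      (chartOf F d hoff).Q1 i :=
  d.smul_P1 hσ i

theorem chartOf_smul_Q2 (d : F.ChartPts) (hoff : ∀ i, d.Q1 i ≠ F.X.Qstar)
    (j : Fin (F.X.gk + F.X.S.card - 1)) :
    arithmeticGalois (modularFunctionFieldFull (M * q)) σ • (chartOf F d hoff).Q2 j =
      (chartOf F d hoff).Q2 j :=
  d.smul_P2 hσ j

end Inertia

end Fermat.Agent.S33.X0.ChartX0
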