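/-
PROJECT N (S33), route H8, leaf X0/OneUnitJ1 (helper8): THE `1`-UNIT CLASSES OF `p`-POWER LEVEL LIE
IN THE KERNEL OF REDUCTION `J¹` OF THE NODAL CHART (last clause of SEAM C).

`oneUnit_pow_le_J1` : for a chart frame `F` at `A ∣ p` and chart points `d` off the auxiliary
disc, `KP.OneUnit.oneUnit hA hpM (p ^ j) ≤ Chart.J1 F.X.N` for every `j` ([N4] =
`Nodal/Chart.mk_mem_J1_of_oneUnit` at the strict representative of a `1`-unit class).
-/
import Fermat.Agent.S33.X0.ChartX0
import Fermat.Agent.S33.KP.OneUnit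

set_option autoImplicit false
set_option linter.unusedSectionVars false
set_option linter.unusedVariables false
set_option linter.style.haveILetI false
set_option synthInstance.maxHeartbeats 400000

noncomputable section

namespace Fermat.Agent.S33.X0.OneUnitJ1

open ModularCurve AlgebraicCurve IsLocalRing
open Fermat.Agent.S34.Z1Abstract Fermat.Agent.S34.Z1X0
open Fermat.Agent.S34.NodalDefs Fermat.Agent.S34.NodalDisc Fermat.Agent.S34.CoreZX0Datum
open Fermat.Agent.S33.Nodal.Chart
open Fermat.Agent.S33.X0.Frame Fermat.Agent.S33.X0.ChartX0 Fermat.Agent.S33.KP.OneUnit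

local notation "Qbar" => AlgebraicClosure ℚ

/-! ### a one-unit of the Gauss ring of a branch is a unit reducing to `1` -/

section Branch

variable {L : Type*} [Field L] {k : Type*} [Field k] {A' : ValuationSubring L} {π : A' →+* k}
variable {FL : Type*} [Field FL] [Algebra L FL] {Fk : Type*} [Field Fk] [Algebra k Fk]

/-- a one-unit of the Gauss ring of a branch is (the value of) a unit reducing to `1` -/
theorem exists_unit_of_isOneUnit (R : Branch A' π FL Fk) {u : FL} (hu : IsOneUnit R.O u) :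
    ∃ f : R.Oˣ, ((f : R.O) : FL) = u ∧ R.red (f : R.O) = 1 := by
  obtain ⟨hmem, hred⟩ := red_eq_one_of_isOneUnit R hu
  have hunit : IsUnit (⟨u, hmem⟩ : R.O) := by
    by_contra hcon
    have h0 := (R.red_eq_zero_iff _).mpr hcon
    rw [hred] at h0
    exact one_ne_zero h0
  exact ⟨hunit.unit, rfl, hred⟩

end Branch

variable {p : ℕ} [hp : Fact p.Prime] {M : ℕ} [NeZero M] {A : ValuationSubring Qbar} [NeZero p]
variable {hA : A.LiesOverPrime p} {hpM : ¬ p ∣ M}

/-- local instance: principal divisors on `E` -/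
local instance instPDBar (N : ℕ) [NeZero N] :
    HasPrincipalDivisors Qbar ↥(modularFunctionFieldBar N) :=
  Fermat.Agent.S18.A.Instances.hasPrincipalDivisors_bar N

local instance instNeZeroMul : NeZero (M * p) :=
  ⟨Nat.mul_ne_zero (NeZero.ne M) (NeZero.ne p)⟩

/-- local instance: the nodes exist -/
local instance instNonemptyNodes (F : ChartFrame hA hpM) : Nonempty {b // b ∈ F.X.S} :=
  F.nonempty_nodes

set_option maxHeartbeats 800000 in
/-- **the `1`-unit classes of level `p ^ j` lie in the kernel of reduction of the nodal chart** -/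
theorem oneUnit_pow_le_J1 [CharP (ResidueField ↥A) p] (F : ChartFrame hA hpM) (d : F.ChartPts)
    (hoff : ∀ i, d.Q1 i ≠ F.X.Qstar) (j : ℕ) :
    ∀ y ∈ oneUnit hA hpM (p ^ j), y ∈ J1 F.X.N := by
  intro y hy
  obtain ⟨D, u, rfl, hu0, hu1, hu2, hord⟩ := exists_strict_of_mem_oneUnit hA hpM hy
  have h1 : IsOneUnit F.X.N.R1.O u := by rw [F.X.O1_eq]; exact hu1
  have h2 : IsOneUnit F.X.N.R2.O u := by rw [F.X.O2_eq]; exact hu2
  obtain ⟨f1, hf1, hred1⟩ := exists_unit_of_isOneUnit F.X.N.R1.toBranch h1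
  obtain ⟨f2, hf2, hred2⟩ := exists_unit_of_isOneUnit F.X.N.R2.toBranch h2
  exact (chartOf F d hoff).mk_mem_J1_of_oneUnit F.deg_eq_one F.riemannGe D f1 f2
    (hf1.trans hf2.symm) hred1 hred2 p j (fun P => by rw [hf1]; exact hord P)

end Fermat.Agent.S33.X0.OneUnitJ1
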