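/-
PROJECT N (S33), route H8, leaf X0/ChartApi (helper8): SEAM C = THE NODAL CHART OF THE KERNEL OF
REDUCTION OF `J₀(M p)` AT `A ∣ p`, `p ∤ M`.

`nodalChart_of` : for a chart frame `F`, chart points `d` off the auxiliary disc, the truncated
addition law `hadd` of the chart `chartOf F d hoff` over `W A` (literal conclusion of
`Nodal/ChartAddD.coord_add_fixed_of_data`) and the inclusions `hone : oneUnit (p ^ j) ≤ J¹`, the
six clauses of SEAM C hold for `J1 := Chart.J1 F.X.N` and `coord := CoordK.coordK (chartOf F d hoff)`.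
-/
import Fermat.Agent.S33.X0.ChartX0
import Fermat.Agent.S33.X0.OneUnitJ1
import Fermat.Agent.S33.Nodal.CoordK
import Fermat.Agent.S33.Nodal.Symm
import Fermat.Agent.S33.Nodal.ChartAddD
import Fermat.Agent.S33.KP.OneUnit

set_option autoImplicit false
set_option linter.unusedSectionVars false
set_option linter.unusedVariables false
set_option linter.style.haveILetI false
set_option synthInstance.maxHeartbeats 400000

noncomputable section

namespace Fermat.Agent.S33.X0.ChartApi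

open ModularCurve AlgebraicCurve IsLocalRing
open Fermat.Agent.S18.C.SmallDVR Fermat.Agent.S19.SymmX0
open Fermat.Agent.S34.NodalDefs Fermat.Agent.S34.NodalDisc Fermat.Agent.S34.CoreZX0Datum
open Fermat.Agent.S33.Nodal.Chart Fermat.Agent.S33.Nodal.CoordU Fermat.Agent.S33.Nodal.CoordK
open Fermat.Agent.S33.Nodal.Symm
open Fermat.Agent.S33.X0.Frame Fermat.Agent.S33.X0.ChartX0 Fermat.Agent.S33.KP.OneUnit

local notation "Qbar" => AlgebraicClosure ℚ
local notation "GQ" => (AlgebraicClosure ℚ ≃ₐ[ℚ] AlgebraicClosure ℚ)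

variable {p : ℕ} [hp : Fact p.Prime] {M : ℕ} [NeZero M] {A : ValuationSubring Qbar} [NeZero p]
variable {hA : A.LiesOverPrime p} {hpM : ¬ p ∣ M}

/-- local instance: principal divisors on `E` -/
local instance instPDBar (N : ℕ) [NeZero N] :
    HasPrincipalDivisors Qbar ↥(modularFunctionFieldBar N) :=
  Fermat.Agent.S18.A.Instances.hasPrincipalDivisors_bar N

local instance instPDFk (A : ValuationSubring Qbar) (N : ℕ) [NeZero N] :
    HasPrincipalDivisors (ResidueField ↥A) ↥(modularFunctionFieldFullC (ResidueField ↥A) N) :=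
  Fermat.Agent.S37.ReductionInputs.hasPrincipalDivisors_Fk A N

local instance instNeZeroMul : NeZero (M * p) :=
  ⟨Nat.mul_ne_zero (NeZero.ne M) (NeZero.ne p)⟩

/-- local instance: the nodes exist -/
local instance instNonemptyNodes (F : ChartFrame hA hpM) : Nonempty {b // b ∈ F.X.S} :=
  F.nonempty_nodes

set_option maxHeartbeats 1600000 in
/-- **SEAM C from the addition law and the one-unit inclusions.** -/
theorem nodalChart_of (F : ChartFrame hA hpM) (d : F.ChartPts)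
    (hoff : ∀ i, d.Q1 i ≠ F.X.Qstar)
    (hadd : ∃ Ψ : ℕ → Fin (F.X.gk + (F.X.gk + F.X.S.card - 1)) →
        MvPolynomial (Fin (F.X.gk + (F.X.gk + F.X.S.card - 1)) ⊕
          Fin (F.X.gk + (F.X.gk + F.X.S.card - 1))) ↥(W A),
      ∀ z z' : J1 F.X.N, ∃ c : A, c ∈ IsLocalRing.maximalIdeal A ∧
        (∀ i, coordU (chartOf F d hoff) F.deg_eq_one F.riemannGe z i ∈ Ideal.span {c} ∧
          coordU (chartOf F d hoff) F.deg_eq_one F.riemannGe z' i ∈ Ideal.span {c} ∧
          coordU (chartOf F d hoff) F.deg_eq_one F.riemannGe (z + z') i ∈ Ideal.span {c}) ∧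
        ∀ (n : ℕ) (i : Fin (F.X.gk + (F.X.gk + F.X.S.card - 1))),
          coordU (chartOf F d hoff) F.deg_eq_one F.riemannGe (z + z') i -
            MvPolynomial.aeval (Sum.elim (coordU (chartOf F d hoff) F.deg_eq_one F.riemannGe z)
              (coordU (chartOf F d hoff) F.deg_eq_one F.riemannGe z')) (Ψ n i) ∈
            Ideal.span {c} ^ n)
    (hone : ∀ j : ℕ, ∀ y ∈ oneUnit hA hpM (p ^ j), y ∈ J1 F.X.N) :
    ∃ (J1 : AddSubgroup (JZero (M * p))) (g : ℕ) (coord : JZero (M * p) → Fin g → Qbar)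
      (Ψ : ℕ → Fin g → MvPolynomial (Fin g ⊕ Fin g) ↥(W A)),
      (∀ τ ∈ A.inertiaSubgroupIn ℚ, ∀ z ∈ J1, τ • z ∈ J1) ∧
      (∀ z z', z ∈ J1 → z' ∈ J1 → coord z = coord z' → z = z') ∧
      (∀ z ∈ J1, ∀ i, coord z i ∈ A.nonunits) ∧
      (∀ τ ∈ A.inertiaSubgroupIn ℚ, ∀ z ∈ J1, ∀ i, coord (τ • z) i = τ (coord z i)) ∧
      (∀ z z', z ∈ J1 → z' ∈ J1 → ∃ c ∈ A.nonunits, ∀ (n : ℕ) (i : Fin g), ∃ a ∈ A,
        coord (z + z') i - MvPolynomial.aeval (Sum.elim (coord z) (coord z')) (Ψ n i) =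
          c ^ n * a) ∧
      ∀ j : ℕ, oneUnit hA hpM (p ^ j) ≤ J1 := by
  classical
  obtain ⟨Ψ, hΨ⟩ := hadd
  have hSL : ∀ w : W A, algebraMap (W A) Qbar w = ((algebraMap (W A) A w : A) : Qbar) :=
    fun w => rfl
  -- the inertial symmetries
  have hin1 : ∀ {τ : GQ}, τ ∈ A.inertiaSubgroupIn ℚ →
      ∀ P : Place Qbar ↥(modularFunctionFieldBar (M * p)),
        F.X.N.R1.r (arithmeticGalois (modularFunctionFieldFull (M * p)) τ • P) = F.X.N.R1.r P :=
    fun {τ} hτ P => F.X.r1_smul τ hτ P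
  have hin2 : ∀ {τ : GQ}, τ ∈ A.inertiaSubgroupIn ℚ →
      ∀ P : Place Qbar ↥(modularFunctionFieldBar (M * p)),
        F.X.N.R2.r (arithmeticGalois (modularFunctionFieldFull (M * p)) τ • P) = F.X.N.R2.r P :=
    fun {τ} hτ P => F.X.r2_smul τ hτ P
  have hstab : ∀ τ ∈ A.inertiaSubgroupIn ℚ, ∀ z ∈ J1 F.X.N,
      arithmeticGalois (modularFunctionFieldFull (M * p)) τ • z ∈ J1 F.X.N :=
    fun τ hτ z hz => smul_mem_J1 _ (hin1 hτ) (hin2 hτ) hz
  refine ⟨J1 F.X.N, F.X.gk + (F.X.gk + F.X.S.card - 1),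
    coordK (chartOf F d hoff) F.deg_eq_one F.riemannGe, Ψ, ?_, ?_, ?_, ?_, ?_, ?_⟩
  · exact fun τ hτ z hz => hstab τ hτ z hz
  · exact fun z z' hz hz' h => coordK_inj _ F.deg_eq_one F.riemannGe hz hz' h
  · exact fun z hz i => coordK_mem_nonunits _ F.deg_eq_one F.riemannGe hz i
  · intro τ hτ z hz i
    have h1 := coordU_smul (chartOf F d hoff) F.deg_eq_one ChartX0.hπ F.riemannGe
      (arithmeticGalois (modularFunctionFieldFull (M * p)) τ) (hin1 hτ) (hin2 hτ)
      (fun i => chartOf_smul_T1 F hτ d hoff i) (fun j => chartOf_smul_T2 F hτ d hoff j) ⟨z, hz⟩ i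
    rw [baseAut_arithmeticGalois_apply] at h1
    show coordK (chartOf F d hoff) F.deg_eq_one F.riemannGe
      (arithmeticGalois (modularFunctionFieldFull (M * p)) τ • z) i =
        τ (coordK (chartOf F d hoff) F.deg_eq_one F.riemannGe z i)
    rw [coordK_of_mem _ F.deg_eq_one F.riemannGe (hstab τ hτ z hz),
      coordK_of_mem _ F.deg_eq_one F.riemannGe hz]
    exact h1
  · exact fun z z' hz hz' =>
      coordK_add (chartOf F d hoff) F.deg_eq_one F.riemannGe hSL Ψ hΨ hz hz'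
  · exact fun j y hy => hone j y hy

/-- the Taylor data of the nodal interpolation datum of two families of chart points, rational
over `W A` (the hypothesis `hdata` of `Nodal/ChartAddD.coord_add_fixed_of_data`) -/
def HasData (F : ChartFrame hA hpM) (d d' : F.ChartPts) (h1 : ∀ i i', d.Q1 i ≠ d'.Q1 i')
    (h2 : ∀ j j', d.Q2 j ≠ d'.Q2 j') : Prop :=
  ∃ φ : Fermat.Agent.S19.TruncAdd.Idx (F.X.gk + (F.X.gk + F.X.S.card - 1)) →
      Fermat.Agent.S33.Nodal.Glued.O12 F.X.N,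
    (∀ f : Fermat.Agent.S33.Nodal.Glued.O12 F.X.N,
        ((f : Fermat.Agent.S33.Nodal.Glued.O12 F.X.N) : ↥(modularFunctionFieldBar (M * p))) ∈
          riemannRochSpace (datumOf F d d' h1 h2).E →
      ∃ (c0 : A) (c : Fermat.Agent.S19.TruncAdd.Idx (F.X.gk + (F.X.gk + F.X.S.card - 1)) → A),
        ((f : Fermat.Agent.S33.Nodal.Glued.O12 F.X.N) : ↥(modularFunctionFieldBar (M * p))) =
          algebraMap Qbar ↥(modularFunctionFieldBar (M * p)) (c0 : Qbar) +
            ∑ a, algebraMap Qbar ↥(modularFunctionFieldBar (M * p)) (c a : Qbar) *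
              ((φ a : Fermat.Agent.S33.Nodal.Glued.O12 F.X.N) :
                ↥(modularFunctionFieldBar (M * p)))) ∧
    LinearIndependent (ResidueField ↥A)
      (Sum.elim (fun _ : Unit => (1 : ↥(modularFunctionFieldFullC (ResidueField ↥A) M) ×
        ↥(modularFunctionFieldFullC (ResidueField ↥A) M)))
        (fun a => Fermat.Agent.S33.Nodal.Glued.red12 F.X.N (φ a))) ∧
    ∃ D : ℕ → Fermat.Agent.S19.TruncAdd.TaylorData ↥(W A)
        (F.X.gk + (F.X.gk + F.X.S.card - 1)),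
      ∀ n, Fermat.Agent.S33.Nodal.AddLaw.TaylorAt (datumOf F d d' h1 h2) φ (D n) n

set_option maxHeartbeats 1600000 in
/-- **SEAM C from the `W A`-rational Taylor data.** -/
theorem nodalChart_of_data (hA : A.LiesOverPrime p) (hpM : ¬ p ∣ M)
    (hdata : ∀ (F : ChartFrame hA hpM) (d d' : F.ChartPts) (h1 : ∀ i i', d.Q1 i ≠ d'.Q1 i')
      (h2 : ∀ j j', d.Q2 j ≠ d'.Q2 j'), HasData F d d' h1 h2) :
    ∃ (J1 : AddSubgroup (JZero (M * p))) (g : ℕ) (coord : JZero (M * p) → Fin g → Qbar)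
      (Ψ : ℕ → Fin g → MvPolynomial (Fin g ⊕ Fin g) ↥(W A)),
      (∀ τ ∈ A.inertiaSubgroupIn ℚ, ∀ z ∈ J1, τ • z ∈ J1) ∧
      (∀ z z', z ∈ J1 → z' ∈ J1 → coord z = coord z' → z = z') ∧
      (∀ z ∈ J1, ∀ i, coord z i ∈ A.nonunits) ∧
      (∀ τ ∈ A.inertiaSubgroupIn ℚ, ∀ z ∈ J1, ∀ i, coord (τ • z) i = τ (coord z i)) ∧
      (∀ z z', z ∈ J1 → z' ∈ J1 → ∃ c ∈ A.nonunits, ∀ (n : ℕ) (i : Fin g), ∃ a ∈ A,
        coord (z + z') i - MvPolynomial.aeval (Sum.elim (coord z) (coord z')) (Ψ n i) =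
          c ^ n * a) ∧
      ∀ j : ℕ, oneUnit hA hpM (p ^ j) ≤ J1 := by
  haveI : CharP (ResidueField ↥A) p := Fermat.Agent.S18.ResidueBasics.charP_residueField A hA
  obtain ⟨F⟩ := nonempty_chartFrame hA hpM
  obtain ⟨d, d', hoff, h1, h2⟩ := exists_chartPts_off F
  have hadd := Fermat.Agent.S33.Nodal.ChartAddD.coord_add_fixed_of_data (chartOf F d hoff)
    (datumOf F d d' h1 h2)
    ⟨fun _ => rfl, fun _ => rfl, fun _ => rfl, fun _ => rfl, fun _ => rfl, fun _ => rfl⟩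
    F.deg_eq_one ChartX0.hπ F.riemannGe (hdata F d d' h1 h2)
  exact nodalChart_of F d hoff hadd
    (fun j => Fermat.Agent.S33.X0.OneUnitJ1.oneUnit_pow_le_J1 F d hoff j)

end Fermat.Agent.S33.X0.ChartApi
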