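/-
PROJECT N (S33), leaf X0/FixesX0 (helper25): THE INERTIA GROUP FIXES THE NODAL INTERPOLATION DATUM
OF `E = ℚ̄(X₀(M q))` AT `A ∣ q`, `q ∤ M`; the fixed ring is `W A`.

Twin of `S19/FixesDatumX0` (`smul_param`, `fixesDatumX0`) at helper6's `S33/X0/Frame.ChartFrame`:
for a nodal interpolation datum `d` over `F.X.N` whose parameters are `x₁ - c`, `x₂ - c` with
`c ∈ W_ℚ(A)` (the shape produced from `ChartFrame.ChartPts`),

* `fixesDatumX0` : every `σ` in the inertia group of `A` satisfies `Nodal.Fixes.FixesDatum d`;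
* `baseAut_inertiaAut_W`, `exists_W_of_baseAut_fixed` : the fixed ring of the inertia family on
  `A` is `W A` (the hypotheses `hSfix`, `hSmem` of the rationality seam).
-/
import Fermat.Agent.S33.Nodal.Fixes
import Fermat.Agent.S33.X0.Frame

set_option autoImplicit false
set_option linter.unusedSectionVars false
set_option linter.unusedVariables false
set_option linter.style.haveILetI false
set_option synthInstance.maxHeartbeats 400000

noncomputable section

namespace Fermat.Agent.S33.X0.FixesX0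

open ModularCurve AlgebraicCurve IsLocalRing
open Fermat.Agent.S18.C.SmallDVR Fermat.Agent.S19.ArithX0 Fermat.Agent.S19.SymmX0
open Fermat.Agent.S34.NodalDefs Fermat.Agent.S34.NodalDisc Fermat.Agent.S34.CoreZX0Datum
open Fermat.Agent.S33.Nodal.Taylor Fermat.Agent.S33.Nodal.Datum Fermat.Agent.S33.Nodal.Fixes
open Fermat.Agent.S33.X0.Frame

local notation "Kb" => AlgebraicClosure ℚ

variable {q : ℕ} [hq : Fact q.Prime] {M : ℕ} [NeZero M] {A : ValuationSubring Kb} [NeZero q]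

/-! ### the fixed ring of the inertia group on `A` is `W A` -/

/-- the family of coefficientwise automorphisms of `ℚ̄(X₀(N))` attached to the inertia group of
`A` -/
def inertiaAut (N : ℕ) [NeZero N] (σ : ↥(A.inertiaSubgroupIn ℚ)) :
    SemilinearAut Kb ↥(modularFunctionFieldBar N) :=
  arithmeticGalois (modularFunctionFieldFull N) (σ : Kb ≃ₐ[ℚ] Kb)

theorem inertiaAut_apply (N : ℕ) [NeZero N] (σ : ↥(A.inertiaSubgroupIn ℚ)) :
    inertiaAut (A := A) N σ = arithmeticGalois (modularFunctionFieldFull N) (σ : Kb ≃ₐ[ℚ] Kb) :=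
  rfl

/-- elements of `W A` are fixed by the base automorphisms of the inertia family -/
theorem baseAut_inertiaAut_W (N : ℕ) [NeZero N] (σ : ↥(A.inertiaSubgroupIn ℚ)) (w : W A) :
    SemilinearAut.baseAut (inertiaAut (A := A) N σ) (((algebraMap (W A) A w : A) : A) : Kb) =
      ((algebraMap (W A) A w : A) : Kb) := by
  unfold inertiaAut
  rw [baseAut_arithmeticGalois_apply]
  exact coe_fixed A (w : K0 A) σ.2

/-- an element of `A` fixed by the base automorphisms of the inertia family lies in `W A` -/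
theorem exists_W_of_baseAut_fixed (N : ℕ) [NeZero N] (x : A)
    (hx : ∀ σ : ↥(A.inertiaSubgroupIn ℚ),
      SemilinearAut.baseAut (inertiaAut (A := A) N σ) ((x : A) : Kb) = ((x : A) : Kb)) :
    ∃ w : W A, algebraMap (W A) A w = x := by
  have hK0 : ((x : A) : Kb) ∈ K0 A := by
    rw [mem_K0_iff]
    intro σ hσ
    have := hx ⟨σ, hσ⟩
    unfold inertiaAut at this
    rwa [baseAut_arithmeticGalois_apply] at this
  exact ⟨⟨⟨(x : Kb), hK0⟩, x.2⟩, Subtype.ext rfl⟩

/-! ### the parameters `x_b - c`, `c ∈ W_ℚ(A)`, are fixed by the inertia group -/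

variable {hA : A.LiesOverPrime q} {hqM : ¬ q ∣ M} (F : ChartFrame hA hqM)

/-- a parameter `x₁ - c` with `c ∈ W_ℚ(A)` is fixed by the inertia group -/
theorem smul_param_1 {σ : Kb ≃ₐ[ℚ] Kb} (hσ : σ ∈ A.inertiaSubgroupIn ℚ) {T : F.X.N.R1.O}
    (hT : ∃ c : A, (c : Kb) ∈ WQ A ∧ T = F.T1 c) :
    arithmeticGalois (modularFunctionFieldFull (M * q)) σ •
        ((T : F.X.N.R1.O) : ↥(modularFunctionFieldBar (M * q))) =
      ((T : F.X.N.R1.O) : ↥(modularFunctionFieldBar (M * q))) := by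
  obtain ⟨c, hc, rfl⟩ := hT
  exact F.smul_param_1 (inertia_fixed hc hσ)

/-- a parameter `x₂ - c` with `c ∈ W_ℚ(A)` is fixed by the inertia group -/
theorem smul_param_2 {σ : Kb ≃ₐ[ℚ] Kb} (hσ : σ ∈ A.inertiaSubgroupIn ℚ) {T : F.X.N.R2.O}
    (hT : ∃ c : A, (c : Kb) ∈ WQ A ∧ T = F.T2 c) :
    arithmeticGalois (modularFunctionFieldFull (M * q)) σ •
        ((T : F.X.N.R2.O) : ↥(modularFunctionFieldBar (M * q))) =
      ((T : F.X.N.R2.O) : ↥(modularFunctionFieldBar (M * q))) := by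
  obtain ⟨c, hc, rfl⟩ := hT
  exact F.smul_param_2 (inertia_fixed hc hσ)

/-! ### the inertia group fixes the datum -/

/-- local instance: principal divisors on `E` -/
local instance instPDBar (N : ℕ) [NeZero N] :
    HasPrincipalDivisors Kb ↥(modularFunctionFieldBar N) :=
  Fermat.Agent.S18.A.Instances.hasPrincipalDivisors_bar N

local instance instNeZeroMul : NeZero (M * q) :=
  ⟨Nat.mul_ne_zero (NeZero.ne M) (NeZero.ne q)⟩

variable {F}

/-- **the inertia group fixes the nodal interpolation datum** -/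
theorem fixesDatumX0 {g1 m2 : ℕ} (d : NDatum F.X.N g1 m2)
    (hT1 : ∀ i, ∃ c : A, (c : Kb) ∈ WQ A ∧ d.T1 i = F.T1 c)
    (hT2 : ∀ j, ∃ c : A, (c : Kb) ∈ WQ A ∧ d.T2 j = F.T2 c)
    (hv1 : ∀ i, ∃ c : A, (c : Kb) ∈ WQ A ∧ d.v1 i = F.T1 c)
    (hv2 : ∀ j, ∃ c : A, (c : Kb) ∈ WQ A ∧ d.v2 j = F.T2 c)
    {σ : Kb ≃ₐ[ℚ] Kb} (hσ : σ ∈ A.inertiaSubgroupIn ℚ) :
    FixesDatum d
      ((SemilinearAut.baseAut (arithmeticGalois (modularFunctionFieldFull (M * q)) σ) :
        Kb ≃+* Kb) : Kb →+* Kb)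
      ((SemilinearAut.toRingAut (arithmeticGalois (modularFunctionFieldFull (M * q)) σ) :
        ↥(modularFunctionFieldBar (M * q)) ≃+* ↥(modularFunctionFieldBar (M * q))) :
        ↥(modularFunctionFieldBar (M * q)) →+* ↥(modularFunctionFieldBar (M * q))) :=
  fixesDatum_of_inertial (arithmeticGalois (modularFunctionFieldFull (M * q)) σ)
    (F.X.r1_smul σ hσ) (F.X.r2_smul σ hσ) d
    (fun i => smul_param_1 F hσ (hT1 i)) (fun j => smul_param_2 F hσ (hT2 j))
    (fun i => smul_param_1 F hσ (hv1 i)) (fun j => smul_param_2 F hσ (hv2 j))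

/-- the same for the family `inertiaAut` indexed by the inertia group -/
theorem fixesDatum_inertiaAut {g1 m2 : ℕ} (d : NDatum F.X.N g1 m2)
    (hT1 : ∀ i, ∃ c : A, (c : Kb) ∈ WQ A ∧ d.T1 i = F.T1 c)
    (hT2 : ∀ j, ∃ c : A, (c : Kb) ∈ WQ A ∧ d.T2 j = F.T2 c)
    (hv1 : ∀ i, ∃ c : A, (c : Kb) ∈ WQ A ∧ d.v1 i = F.T1 c)
    (hv2 : ∀ j, ∃ c : A, (c : Kb) ∈ WQ A ∧ d.v2 j = F.T2 c)
    (σ : ↥(A.inertiaSubgroupIn ℚ)) :
    FixesDatum d
      ((SemilinearAut.baseAut (inertiaAut (A := A) (M * q) σ) : Kb ≃+* Kb) : Kb →+* Kb)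
      ((SemilinearAut.toRingAut (inertiaAut (A := A) (M * q) σ) :
        ↥(modularFunctionFieldBar (M * q)) ≃+* ↥(modularFunctionFieldBar (M * q))) :
        ↥(modularFunctionFieldBar (M * q)) →+* ↥(modularFunctionFieldBar (M * q))) :=
  fixesDatumX0 d hT1 hT2 hv1 hv2 σ.2

end Fermat.Agent.S33.X0.FixesX0
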