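/-
PROJECT N (S33), route H8, leaf X0/SeamC (helper8): SEAM C AND SEAM Ω, UNCONDITIONALLY.

* `hasData` : the `W A`-rational Taylor data of the nodal interpolation datum of two families of
  chart points of `X₀(M p)` at `A ∣ p` (`Nodal/TaylorRatFix.exists_data_fixed` at the inertia
  family, fixed ring `W A`);
* `exists_nodalChart` : **SEAM C** (`X0/ChartApi.nodalChart_of_data` at `hasData`);
* `exists_inertiaFrame` : **SEAM Ω** (`Hopf/Omega.inertiaFrame_of_nodalChart` at SEAM C).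
-/
import Fermat.Agent.S33.X0.ChartApi
import Fermat.Agent.S33.X0.FixesX0
import Fermat.Agent.S33.Nodal.TaylorRatFix
import Fermat.Agent.S33.Hopf.Omega

set_option autoImplicit false
set_option linter.unusedSectionVars false
set_option linter.unusedVariables false
set_option linter.style.haveILetI false
set_option synthInstance.maxHeartbeats 400000

noncomputable section

namespace Fermat.Agent.S33.X0.SeamC

open ModularCurve AlgebraicCurve IsLocalRing
open Fermat.Agent.S18.C.SmallDVR Fermat.Agent.S15.P.CycAct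
open Fermat.Agent.S33.Alg.Reach
open Fermat.Agent.S33.X0.Frame Fermat.Agent.S33.X0.ChartX0 Fermat.Agent.S33.X0.ChartApi
open Fermat.Agent.S33.X0.FixesX0 Fermat.Agent.S33.KP.OneUnit

local notation "Qbar" => AlgebraicClosure ℚ
local notation "GQ" => (AlgebraicClosure ℚ ≃ₐ[ℚ] AlgebraicClosure ℚ)

variable {p : ℕ} [hp : Fact p.Prime] {M : ℕ} [NeZero M] {A : ValuationSubring Qbar} [NeZero p]
variable {hA : A.LiesOverPrime p} {hpM : ¬ p ∣ M}

/-- local instance: principal divisors on `E` -/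
local instance instPDBar (N : ℕ) [NeZero N] :
    HasPrincipalDivisors Qbar ↥(modularFunctionFieldBar N) :=
  Fermat.Agent.S18.A.Instances.hasPrincipalDivisors_bar N

local instance instNeZeroMul : NeZero (M * p) :=
  ⟨Nat.mul_ne_zero (NeZero.ne M) (NeZero.ne p)⟩

set_option maxHeartbeats 1600000 in
/-- **the `W A`-rational Taylor data of the datum of two families of chart points** -/
theorem hasData (F : ChartFrame hA hpM) (d d' : F.ChartPts) (h1 : ∀ i i', d.Q1 i ≠ d'.Q1 i')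
    (h2 : ∀ j j', d.Q2 j ≠ d'.Q2 j') : HasData F d d' h1 h2 :=
  Fermat.Agent.S33.Nodal.TaylorRatFix.exists_data_fixed (S := ↥(W A)) (datumOf F d d' h1 h2)
    (ChartX0.orthoPair F) (ChartX0.riemannHyp F) (ChartX0.finite_k F) (ChartX0.finite_k F)
    F.deg_eq_one_k F.deg_eq_one_k (toA_injective A)
    (fun σ : ↥(A.inertiaSubgroupIn ℚ) =>
      ((SemilinearAut.baseAut (inertiaAut (A := A) (M * p) σ) : Qbar ≃+* Qbar) : Qbar →+* Qbar))
    (fun σ : ↥(A.inertiaSubgroupIn ℚ) =>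
      ((SemilinearAut.toRingAut (inertiaAut (A := A) (M * p) σ) :
        ↥(modularFunctionFieldBar (M * p)) ≃+* ↥(modularFunctionFieldBar (M * p))) :
        ↥(modularFunctionFieldBar (M * p)) →+* ↥(modularFunctionFieldBar (M * p))))
    (fun σ => fixesDatum_inertiaAut (datumOf F d d' h1 h2) (datumOf_hT1 F d d' h1 h2)
      (datumOf_hT2 F d d' h1 h2) (datumOf_hv1 F d d' h1 h2) (datumOf_hv2 F d d' h1 h2) σ)
    (fun σ w => baseAut_inertiaAut_W (M * p) σ w)
    (fun x hx => exists_W_of_baseAut_fixed (M * p) x hx)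

/-- **SEAM C**: the nodal chart of the kernel of reduction of `J₀(M p)` at `A ∣ p`. -/
theorem exists_nodalChart (hA : A.LiesOverPrime p) (hpM : ¬ p ∣ M) :
    ∃ (J1 : AddSubgroup (JZero (M * p))) (g : ℕ) (coord : JZero (M * p) → Fin g → Qbar)
      (Ψ : ℕ → Fin g → MvPolynomial (Fin g ⊕ Fin g) ↥(W A)),
      (∀ τ ∈ A.inertiaSubgroupIn ℚ, ∀ z ∈ J1, τ • z ∈ J1) ∧
      (∀ z z', z ∈ J1 → z' ∈ J1 → coord z = coord z' → z = z') ∧
      (∀ z ∈ J1, ∀ i, coord z i ∈ A.nonunits) ∧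
      (∀ τ ∈ A.inertiaSubgroupIn ℚ, ∀ z ∈ J1, ∀ i, coord (τ • z) i = τ (coord z i)) ∧
      (∀ z z', z ∈ J1 → z' ∈ J1 → ∃ c ∈ A.nonunits, ∀ (n : ℕ) (i : Fin g), ∃ a ∈ A,
        coord (z + z') i - MvPolynomial.aeval (Sum.elim (coord z) (coord z')) (Ψ n i) =
          c ^ n * a) ∧
      ∀ j : ℕ, oneUnit hA hpM (p ^ j) ≤ J1 :=
  nodalChart_of_data hA hpM (fun F d d' h1 h2 => hasData F d d' h1 h2)

/-- **SEAM Ω**: the inertia frame of `J₀(M p)` at `A ∣ p`. -/
theorem exists_inertiaFrame (hA : A.LiesOverPrime p) (hpM : ¬ p ∣ M) :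
    ∃ U : AddSubgroup (JZero (M * p)),
      (∀ τ ∈ A.inertiaSubgroupIn ℚ, ∀ z ∈ U, τ • z ∈ U) ∧
      (∀ (k : ℕ) (y : JZero (M * p)), (p ^ k) • y = 0 →
        ∀ τ ∈ A.inertiaSubgroupIn ℚ, τ • y - y ∈ U) ∧
      ∀ (k : ℕ) (B : AddSubgroup (JZero (M * p))), (∀ z ∈ B, z ∈ U ∧ (p ^ k) • z = 0) →
        Reach (fun (τ : ↥(A.inertiaSubgroupIn ℚ)) (z : JZero (M * p)) => (τ : GQ) • z) p B →
        ∀ τ : ↥(A.inertiaSubgroupIn ℚ), ∀ z ∈ B, (τ : GQ) • z = cycExp p k (τ : GQ) • z :=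
  Fermat.Agent.S33.Hopf.Omega.inertiaFrame_of_nodalChart hA hpM (exists_nodalChart hA hpM)

end Fermat.Agent.S33.X0.SeamC
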